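import Fermat.Agent.MUL.E.Velu.XU

section MergeWrap_E_Velu_Fiber -- from E/Velu/Fiber.lean

/-!
# Vélu (E-V), leaf F: subgroups of odd order: no `2`-torsion, fibres of `x`

`C` a finite subgroup of odd order of `W.Point`, `Cs` its nonzero points.
-/

set_option autoImplicit false
set_option linter.unusedSectionVars false

open WeierstrassCurve

namespace Fermat.Agent.Velu

open Fermat.Agent.EV (ptX ptY veluT veluU)

variable {k : Type*} [Field k] [DecidableEq k] {W : Affine k}
  (C : AddSubgroup W.Point) (hC : (C : Set W.Point).Finite)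

/-- no `2`-torsion in a subgroup of odd order -/
theorem eq_zero_of_add_self (hodd : Odd (Nat.card C)) {T : W.Point} (hT : T ∈ C)
    (h : T + T = 0) : T = 0 := by
  obtain ⟨m, hm⟩ := hodd
  have h1 : Nat.card C • (⟨T, hT⟩ : C) = 0 := card_nsmul_eq_zero'
  have h2 : Nat.card C • T = 0 := by
    have := congrArg Subtype.val h1
    rwa [AddSubgroup.coe_nsmul, AddSubgroup.coe_zero] at this
  have h3 : 2 • T = 0 := by rw [two_nsmul]; exact h
  rw [hm, add_nsmul, mul_comm, mul_nsmul, smul_comm, h3, nsmul_zero, zero_add, one_nsmul] at h2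
  exact h2

theorem ne_neg_of_mem_Cs (hodd : Odd (Nat.card C)) {T : W.Point} (hT : T ∈ Cs C hC) :
    T ≠ -T := by
  intro h
  rw [mem_Cs] at hT
  apply hT.2
  apply eq_zero_of_add_self C hodd hT.1
  nth_rewrite 2 [h]
  exact add_neg_cancel T

/-- `η(T) ≠ 0` for the nonzero points of `C` -/
theorem ptEta_ne_zero (hodd : Odd (Nat.card C)) {T : W.Point} (hT : T ∈ Cs C hC) :
    ptEta T ≠ 0 := by
  intro h0
  have hne := ne_neg_of_mem_Cs C hC hodd hT
  rw [mem_Cs] at hT
  cases T with
  | zero => exact hT.2 rfl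
  | some x y h =>
    apply hne
    rw [Affine.Point.neg_some]
    have h1 : 2 * y + W.a₁ * x + W.a₃ = 0 := h0
    have h2 : W.negY x y = y := by
      rw [Affine.negY]
      linear_combination -h1
    simp only [h2]

/-- `u_T = η(T)²` -/
theorem veluU_eq_sq {T : W.Point} (hT : T ≠ 0) : veluU W T = ptEta T ^ 2 := by
  cases T with
  | zero => exact absurd rfl hT
  | some x y h =>
    show 4 * x ^ 3 + W.b₂ * x ^ 2 + 2 * W.b₄ * x + W.b₆ = (2 * y + W.a₁ * x + W.a₃) ^ 2
    have he := (Affine.equation_iff x y).mp h.1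
    simp only [WeierstrassCurve.b₂, WeierstrassCurve.b₄, WeierstrassCurve.b₆]
    linear_combination -4 * he

theorem veluU_ne_zero (hodd : Odd (Nat.card C)) {T : W.Point} (hT : T ∈ Cs C hC) :
    veluU W T ≠ 0 := by
  rw [veluU_eq_sq (mem_Cs.1 hT).2]
  exact pow_ne_zero 2 (ptEta_ne_zero C hC hodd hT)

/-- two nonzero points with the same `x` are equal or opposite -/
theorem eq_or_eq_neg_of_ptX_eq {S T : W.Point} (hS : S ≠ 0) (hT : T ≠ 0) (h : ptX S = ptX T) :
    S = T ∨ S = -T := by
  cases S with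
  | zero => exact absurd rfl hS
  | some x y hxy =>
    cases T with
    | zero => exact absurd rfl hT
    | some a b hab =>
      have hx : x = a := h
      subst hx
      rcases Affine.Y_eq_of_X_eq hxy.1 hab.1 rfl with hy | hy
      · left
        subst hy
        rfl
      · right
        rw [Affine.Point.neg_some]
        subst hy
        rfl

/-- the fibres of `x` on `Cs` have two elements -/
theorem sum_Cs_ptX (hodd : Odd (Nat.card C)) {M : Type*} [AddCommMonoid M] (g : k → M) :
    ∑ T ∈ Cs C hC, g (ptX T) = ∑ a ∈ (Cs C hC).image ptX, (g a + g a) := by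
  classical
  rw [← Finset.sum_fiberwise_of_maps_to (g := ptX) (t := (Cs C hC).image ptX)
    (fun T hT => Finset.mem_image_of_mem _ hT)]
  refine Finset.sum_congr rfl (fun a ha => ?_)
  obtain ⟨T, hT, rfl⟩ := Finset.mem_image.mp ha
  have hT0 : T ≠ 0 := (mem_Cs.1 hT).2
  have hfib : (Cs C hC).filter (fun S => ptX S = ptX T) = {T, -T} := by
    ext S
    simp only [Finset.mem_filter, Finset.mem_insert, Finset.mem_singleton]
    constructor
    · rintro ⟨hS, hx⟩
      exact eq_or_eq_neg_of_ptX_eq (mem_Cs.1 hS).2 hT0 hx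
    · rintro (rfl | rfl)
      · exact ⟨hT, rfl⟩
      · refine ⟨?_, ptX_neg T⟩
        rw [mem_Cs] at hT ⊢
        exact ⟨C.neg_mem hT.1, neg_ne_zero.2 hT.2⟩
  rw [hfib, Finset.sum_pair (ne_neg_of_mem_Cs C hC hodd hT), ptX_neg]

end Fermat.Agent.Velu
end MergeWrap_E_Velu_Fiber
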